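import Fermat.Agent.LT.TestVector.Basic
import Fermat.Agent.LT.Asai.Restrict.Field

/-!
# The places of `ℚ(ζ₃)` seen by the test vector

The place `threePlace` above `3` with the valuations of `ζ₃ - 1`, `3` and `√-3` there, and the
valuation of a natural number at a place away from `3` dividing it exactly.
-/

set_option autoImplicit false

noncomputable section

open IsDedekindDomain WithZero NumberField
open scoped NumberField

namespace Fermat.Agent.LT.TestVector

open Places Asai

section General

variable {F : Type*} [Field F] [NumberField F]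

omit [NumberField F] in
/-- The prime below a place divides every natural number in it. -/
theorem resPrime_dvd {v : FinPlace F} {N : ℕ} (h : (N : 𝓞 F) ∈ v.asIdeal) :
    (resPrime v : ℕ) ∣ N := by
  by_contra hd
  have hco : IsCoprime ((resPrime v : ℕ) : 𝓞 F) ((N : ℕ) : 𝓞 F) :=
    ((Nat.Prime.coprime_iff_not_dvd (resPrime_prime v)).2 hd).cast
  obtain ⟨x, y, hxy⟩ := hco
  refine v.isPrime.ne_top ((Ideal.eq_top_iff_one _).2 ?_)
  rw [← hxy]
  exact add_mem (Ideal.mul_mem_left _ _ (natCast_mem v)) (Ideal.mul_mem_left _ _ h)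

theorem valuation_mul_of_notMem {v : FinPlace F} {k n : ℕ} (hn : (n : 𝓞 F) ∉ v.asIdeal) :
    v.valuation F ((k * n : ℕ) : F) = v.valuation F (k : F) := by
  rw [Nat.cast_mul, map_mul, valuation_natCast_eq_one hn, mul_one]

theorem eq_exp_of_sq {z : ℤᵐ⁰} {n : ℤ} (h : z ^ 2 = exp (2 * n)) : z = exp n := by
  have h0 : z ≠ 0 := fun h0 => exp_ne_zero (a := 2 * n) (by rw [← h, h0, zero_pow two_ne_zero])
  rw [← exp_log h0, ← exp_nsmul, exp_inj, nsmul_eq_mul] at h
  rw [← exp_log h0, exp_inj]
  omega

theorem eq_one_of_cube {z : ℤᵐ⁰} (h : z ^ 3 = 1) : z = 1 := by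
  have h0 : z ≠ 0 := fun h0 => one_ne_zero (α := ℤᵐ⁰) (by rw [← h, h0, zero_pow three_ne_zero])
  rw [← exp_log h0, ← exp_nsmul, ← exp_zero, exp_inj, nsmul_eq_mul] at h
  rw [← exp_log h0, ← exp_zero, exp_inj]
  omega

end General

/-- Away from `3`, an exact divisor has valuation one. -/
theorem valuation_eq_exp_neg_one {v : FinPlace EisField} (h3 : (3 : 𝓞 EisField) ∉ v.asIdeal)
    {N : ℕ} (hN : (N : 𝓞 EisField) ∈ v.asIdeal) (hsq : ¬ (resPrime v : ℕ) ^ 2 ∣ N) :
    v.valuation EisField (N : EisField) = exp (-1 : ℤ) := by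
  set q : ℕ := (resPrime v : ℕ) with hq
  have hqp : q.Prime := resPrime_prime v
  obtain ⟨k, hk⟩ := resPrime_dvd hN
  have hkv : (k : 𝓞 EisField) ∉ v.asIdeal := fun h => hsq (by
    rw [hk, pow_two]
    exact Nat.mul_dvd_mul_left q (resPrime_dvd h))
  rw [hk, valuation_mul_of_notMem hkv, ← map_natCast (algebraMap (𝓞 EisField) EisField),
    v.valuation_of_algebraMap]
  have hle : v.intValuation (q : 𝓞 EisField) ≤ exp (-((1 : ℕ) : ℤ)) :=
    (v.intValuation_le_pow_iff_mem _ 1).2 (by rw [pow_one]; exact natCast_mem v)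
  have hnot : ¬ v.intValuation (q : 𝓞 EisField) ≤ exp (-((2 : ℕ) : ℤ)) := by
    intro h2
    have hmem := (v.intValuation_le_pow_iff_mem _ 2).1 h2
    refine Whittaker.not_differentIdeal_le_three v h3 ?_
    have hp0 : (Ideal.span {((q : ℕ) : ℤ)}) ≠ ⊥ := by
      simp [hqp.ne_zero]
    have : (Ideal.span {((q : ℕ) : ℤ)}).IsMaximal :=
      ((Ideal.span_singleton_prime (by exact_mod_cast hqp.ne_zero)).2
        (Nat.prime_iff_prime_int.1 hqp)).isMaximal hp0
    have := pow_sub_one_dvd_differentIdeal ℤ v.asIdeal 2 hp0 (by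
      rw [Ideal.map_span, Set.image_singleton, map_natCast]
      exact Ideal.dvd_iff_le.2 ((Ideal.span_singleton_le_iff_mem _).2 hmem))
    simpa [Ideal.dvd_iff_le] using this
  have h0 : v.intValuation (q : 𝓞 EisField) ≠ 0 :=
    v.intValuation_ne_zero _ (Nat.cast_ne_zero.2 hqp.ne_zero)
  rw [← exp_log h0, exp_le_exp] at hle hnot
  rw [← exp_log h0, exp_inj]
  push_cast at hle hnot
  omega

instance fact_prime_three : Fact (Nat.Prime 3) := ⟨Nat.prime_three⟩

/-- `ζ - 1`. -/
def eisLambda : 𝓞 EisField := eisZeta_spec.toInteger - 1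

theorem eisLambda_prime : Prime eisLambda := eisZeta_spec.zeta_sub_one_prime'

theorem eisLambda_sq : eisLambda ^ 2 = -3 * eisZeta_spec.toInteger := by
  refine RingOfIntegers.ext ?_
  simp only [eisLambda, map_pow, map_sub, map_mul, map_neg, map_one, map_ofNat]
  show (eisZeta - 1) ^ 2 = -3 * eisZeta
  linear_combination eisZeta_sq

/-- The place above `3`. -/
def threePlace : FinPlace EisField where
  asIdeal := Ideal.span {eisLambda}
  isPrime := (Ideal.span_singleton_prime eisLambda_prime.ne_zero).2 eisLambda_prime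
  ne_bot := by simp [eisLambda_prime.ne_zero]

theorem eq_threePlace {v : FinPlace EisField} (h : (3 : 𝓞 EisField) ∈ v.asIdeal) :
    v = threePlace := by
  refine HeightOneSpectrum.ext (threePlace.isMaximal.eq_of_le v.isPrime.ne_top ?_).symm
  show Ideal.span {eisLambda} ≤ _
  rw [Ideal.span_singleton_le_iff_mem]
  refine v.isPrime.mem_of_pow_mem 2 ?_
  rw [eisLambda_sq]
  exact Ideal.mul_mem_right _ _ (neg_mem h)

theorem three_mem_threePlace : (3 : 𝓞 EisField) ∈ threePlace.asIdeal := by
  have h : -3 * eisZeta_spec.toInteger * eisZeta_spec.toInteger ^ 2 ∈ threePlace.asIdeal := by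
    rw [← eisLambda_sq, pow_two]
    exact Ideal.mul_mem_right _ _ (Ideal.mul_mem_right _ _ (Ideal.mem_span_singleton_self _))
  rw [mul_assoc, ← pow_succ', eisZeta_spec.toInteger_isPrimitiveRoot.pow_eq_one, mul_one] at h
  simpa using neg_mem h

theorem valuation_eisZeta (v : FinPlace EisField) : v.valuation EisField eisZeta = 1 :=
  eq_one_of_cube (by rw [← map_pow, eisZeta_spec.pow_eq_one, map_one])

theorem valuation_eisLambda : threePlace.valuation EisField (eisZeta - 1) = exp (-1 : ℤ) := by
  have h := threePlace.intValuation_singleton eisLambda_prime.ne_zero rfl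
  rw [← threePlace.valuation_of_algebraMap (K := EisField)] at h
  exact h

/-- `3` has order `2` at the place above it. -/
theorem valuation_three : threePlace.valuation EisField (3 : EisField) = exp (-2 : ℤ) := by
  have h : threePlace.valuation EisField ((eisZeta - 1) ^ 2) = exp (-2 : ℤ) := by
    rw [map_pow, valuation_eisLambda, ← exp_nsmul]; rfl
  rwa [show (eisZeta - 1) ^ 2 = -(3 * eisZeta) by linear_combination eisZeta_sq,
    Valuation.map_neg, map_mul, valuation_eisZeta, mul_one] at h

theorem valuation_eisSqrt_three : threePlace.valuation EisField eisSqrt = exp (-1 : ℤ) :=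
  eq_exp_of_sq (by rw [← map_pow, eisSqrt_sq, Valuation.map_neg, valuation_three]; rfl)

theorem valuation_eisSqrt_of_notMem {v : FinPlace EisField} (h : (3 : 𝓞 EisField) ∉ v.asIdeal) :
    v.valuation EisField eisSqrt = 1 := by
  have h3 : v.valuation EisField ((3 : ℕ) : EisField) = 1 :=
    valuation_natCast_eq_one (by exact_mod_cast h)
  rw [← exp_zero]
  refine eq_exp_of_sq ?_
  rw [← map_pow, eisSqrt_sq, Valuation.map_neg, mul_zero, exp_zero]
  exact_mod_cast h3

/-- The valuation of `eisDelta = 1 / √-3`. -/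
theorem valuation_eisDelta (v : FinPlace EisField) :
    v.valuation EisField eisDelta = (v.valuation EisField eisSqrt)⁻¹ := map_inv₀ _ _

end Fermat.Agent.LT.TestVector

end
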