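import Fermat.Agent.LT.TestVector.Raise
import Fermat.Agent.LT.TestVector.Eis

/-!
# The test vector of the lift

From a cusp form on `ℚ(ζ₃)` whose level is square free away from `3`: a form with the same eigen
system, of level `M = 3 ^ k * ∏ q`, whose coefficient at `3 ^ e / √-3` at the coset of
`diag (1/M, 1)` does not vanish.
-/

set_option autoImplicit false

noncomputable section

open IsDedekindDomain WithZero NumberField
open scoped NumberField Matrix

namespace Fermat.Agent.LT.TestVector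

open Places Whittaker Translate Asai

section General

variable {F : Type*} [Field F] [NumberField F]

/-- Only finitely many places contain a positive integer. -/
theorem finite_natCast_mem {M : ℕ} (hM : 0 < M) :
    {v : FinPlace F | (M : 𝓞 F) ∈ v.asIdeal}.Finite := by
  refine (finite_natCast M hM).subset fun v hv => ne_of_lt ?_
  rw [← map_natCast (algebraMap (𝓞 F) F), v.valuation_lt_one_iff_mem]
  exact hv

theorem placeVal_prod_piUnit (S : Finset (FinPlace F)) (k : FinPlace F → ℕ) (w : FinPlace F)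
    [Decidable (w ∈ S)] :
    placeVal w ((∏ v ∈ S, piUnit v ^ k v : (FinAdele F)ˣ) : FinAdele F)
      = if w ∈ S then exp (-(k w : ℤ)) else 1 := by
  classical
  rw [placeVal, Units.coe_prod, map_prod, map_prod]
  simp only [Units.val_pow_eq_pow_val, map_pow]
  split_ifs with h
  · rw [Finset.prod_eq_single w (fun l _ hl => ?_) (fun h' => absurd h h')]
    · rw [toPlace_piUnit_same, valued_piLocal, ← exp_nsmul]
      simp
    · rw [toPlace_piUnit_ne (Ne.symm hl), map_one, one_pow]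
  · refine Finset.prod_eq_one fun l hl => ?_
    rw [toPlace_piUnit_ne (fun e : w = l => h (e ▸ hl)), map_one, one_pow]

theorem placeVal_globalIdele (w : FinPlace F) (ξ : Fˣ) :
    placeVal w (Rigidity.globalIdele F ξ : FinAdele F) = w.valuation F (ξ : F) :=
  placeVal_finIncl w _

/-- An idele equal to `1 / M` at the places dividing `M` and to `1` elsewhere. -/
theorem exists_invIdele {M : ℕ} (hM : 0 < M) :
    ∃ t : (FinAdele F)ˣ,
      (∀ v : FinPlace F, (M : 𝓞 F) ∈ v.asIdeal →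
        toPlace v ((M : FinAdele F) * (t : FinAdele F)) = 1) ∧
      ∀ v : FinPlace F, (M : 𝓞 F) ∉ v.asIdeal → toPlace v (t : FinAdele F) = 1 := by
  classical
  set S := (finite_natCast_mem (F := F) hM).toFinset
  have hu : ∀ v : FinPlace F, ((M : ℕ) : v.adicCompletion F) ≠ 0 := fun v => by
    rw [← map_natCast (toPlace v)]
    exact ((isUnit_natCast M hM).map (toPlace v)).ne_zero
  refine ⟨∏ v ∈ S, localUnit v (Units.mk0 _ (hu v))⁻¹, fun w hw => ?_, fun w hw => ?_⟩
  · have hwS : w ∈ S := (Set.Finite.mem_toFinset _).2 hw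
    rw [map_mul, map_natCast, Units.coe_prod, map_prod,
      Finset.prod_eq_single w (fun l _ hl => toPlace_localUnit_ne (Ne.symm hl) _)
        (fun h => absurd hwS h), toPlace_localUnit_same, Units.val_inv_eq_inv_val, Units.val_mk0,
      mul_inv_cancel₀ (hu w)]
  · have hwS : w ∉ S := fun h => hw ((Set.Finite.mem_toFinset (finite_natCast_mem (F := F) hM)).1 h)
    rw [Units.coe_prod, map_prod]
    exact Finset.prod_eq_one fun l hl => toPlace_localUnit_ne (fun e : w = l => hwS (e ▸ hl)) _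

/-- `diag (ε, 1)` is integral when `ε` is a unit at every place. -/
theorem intGL_dia {ε : (FinAdele F)ˣ} (h : ∀ v, placeVal v (ε : FinAdele F) = 1) :
    Reduction.IntGL ((dia ε : GL (Fin 2) (FinAdele F)) : GLFin F) := by
  refine intGL_iff.2 fun v => mem_intGroup_iff.2 ⟨fun i j => ?_, ?_⟩
  · rw [glPlace_apply]
    have h' : Valued.v (toPlace v (ε : FinAdele F)) ≤ 1 := (h v).le
    fin_cases i <;> fin_cases j <;> simp [dia, h']
  · have h' : Valued.v (toPlace v (ε : FinAdele F)) = 1 := h v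
    rw [Matrix.det_fin_two]
    simp [glPlace_apply, dia, h']

variable [NumberField.IsTotallyComplex F] {M : ℕ} {hM : 0 < M} {lam : Ideal (𝓞 F) → ℂ}

/-- The good part of the argument of a nonzero Whittaker value can be removed. -/
theorem exists_unit_at_good {φ : Y (Level.principal F M hM) → ℂ} (hφ : IsForm M hM lam φ)
    (hdiff : ∀ v : FinPlace F, (M : 𝓞 F) ∉ v.asIdeal → ¬ differentIdeal ℤ (𝓞 F) ≤ v.asIdeal)
    {b : (FinAdele F)ˣ} (hb : wv φ (dia b) ≠ 0) :
    ∃ α : (FinAdele F)ˣ, wv φ (dia α) ≠ 0 ∧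
      (∀ v, (M : 𝓞 F) ∉ v.asIdeal → placeVal v (α : FinAdele F) = 1) ∧
      ∀ v, (M : 𝓞 F) ∈ v.asIdeal →
        placeVal v (α : FinAdele F) = placeVal v (b : FinAdele F) := by
  classical
  set S := (finite_placeVal_units b).toFinset.filter fun v => (M : 𝓞 F) ∉ v.asIdeal
  have hS : ∀ v, v ∈ S ↔ placeVal v (b : FinAdele F) ≠ 1 ∧ (M : 𝓞 F) ∉ v.asIdeal := fun v => by
    simp [S]
  let k : FinPlace F → ℕ := fun v => (-log (placeVal v (b : FinAdele F))).toNat
  have hk : ∀ v ∈ S, placeVal v (b : FinAdele F) = exp (-(k v : ℤ)) := by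
    intro v hv
    have hMv := ((hS v).1 hv).2
    have h0 := placeVal_units_ne_zero v b
    have hle : placeVal v (b : FinAdele F) ≤ 1 := by
      refine not_lt.1 fun hlt => hb ?_
      have := whit_eq_zero_of_one_lt hφ.cusp.cuspEigen v (hdiff v hMv)
        (c := QuotientGroup.mk (1 : GLFin F))
        (fun x hx => unip_single_smul (isGoodAt_principal hM hMv)
          (by rw [map_one]; exact (intGroup v).one_mem) hx) b hlt
      show whit φ (QuotientGroup.mk (dia b)) = 0
      rw [← mul_one (dia b)]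
      exact this
    rw [← exp_log h0, ← exp_zero, exp_le_exp] at hle
    conv_lhs => rw [← exp_log h0]
    rw [exp_inj]
    simp only [k]
    omega
  set P := ∏ v ∈ S, piUnit v ^ k v with hP
  have hα : ∀ w, placeVal w ((b * P⁻¹ : (FinAdele F)ˣ) : FinAdele F)
      = placeVal w (b : FinAdele F) * (if w ∈ S then exp (-(k w : ℤ)) else 1)⁻¹ := fun w => by
    rw [Units.val_mul, placeVal_mul, placeVal_units_inv, hP, placeVal_prod_piUnit]
  have hgood : ∀ w, (M : 𝓞 F) ∉ w.asIdeal →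
      placeVal w ((b * P⁻¹ : (FinAdele F)ˣ) : FinAdele F) = 1 := fun w hw => by
    rw [hα]
    split_ifs with h
    · rw [hk w h, mul_inv_cancel₀ exp_ne_zero]
    · rw [inv_one, mul_one]
      by_contra hne
      exact h ((hS w).2 ⟨hne, hw⟩)
  refine ⟨b * P⁻¹, ?_, hgood, fun w hw => ?_⟩
  · have h := whit_prod_pow_eigenSystem hφ.cusp.cuspEigen hM hφ.eigen S
      (fun v hv => ((hS v).1 hv).2) (fun v hv => isGoodAt_principal hM ((hS v).1 hv).2)
      (fun v hv => hdiff v ((hS v).1 hv).2) 1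
      (fun v _ => by rw [map_one]; exact (intGroup v).one_mem) (b * P⁻¹)
      (fun v hv => hgood v ((hS v).1 hv).2) k
    rw [← hP, inv_mul_cancel_right] at h
    intro h0
    refine hb ?_
    show whit φ (QuotientGroup.mk (dia b)) = 0
    rw [← mul_one (dia b)]
    refine h.trans (mul_eq_zero_of_right _ ?_)
    show whit φ (QuotientGroup.mk (dia (b * P⁻¹) * 1)) = 0
    rw [mul_one]
    exact h0
  · rw [hα, if_neg fun h => ((hS w).1 h).2 hw, inv_one, mul_one]

omit [IsTotallyComplex F] in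
/-- The valuations of a power of a uniformizer idele. -/
theorem placeVal_piUnit_pow (v w : FinPlace F) (i : ℕ) [Decidable (w = v)] :
    placeVal w ((piUnit v ^ i : (FinAdele F)ˣ) : FinAdele F) =
      if w = v then exp (-(i : ℤ)) else 1 := by
  rw [placeVal, Units.val_pow_eq_pow_val, map_pow, map_pow]
  split_ifs with h
  · subst h
    rw [toPlace_piUnit_same, valued_piLocal, ← exp_nsmul]
    simp
  · rw [toPlace_piUnit_ne h, map_one, one_pow]

end General

local notation "K" => EisField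

/-- Away from `3` a level that is square free there has valuation one at the places dividing it. -/
theorem valuation_level_eq_exp_neg_one {N : ℕ} (hsq : ∀ q : ℕ, q.Prime → q ≠ 3 → ¬ q ^ 2 ∣ N)
    {w : FinPlace K} (h3 : (3 : 𝓞 K) ∉ w.asIdeal) (hN : (N : 𝓞 K) ∈ w.asIdeal) :
    w.valuation K (N : K) = exp (-1 : ℤ) := by
  refine valuation_eq_exp_neg_one h3 hN (hsq _ (resPrime_prime w) fun he => h3 ?_)
  have := natCast_mem w
  rw [he] at this
  exact_mod_cast this

/-- `3 ^ j` clears the denominator of `π ^ i`, `π` the uniformizer idele at `3`, if `i ≤ j`. -/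
theorem three_pow_mul_inv_mem_integralAdele {i j : ℕ} (hij : i ≤ j) :
    ((3 ^ j : ℕ) : FinAdele K) * (((piUnit threePlace ^ i)⁻¹ : (FinAdele K)ˣ) : FinAdele K) ∈
      integralAdele K := by
  classical
  have h3pow : threePlace.valuation K ((3 ^ j : ℕ) : K) = exp (-(2 * (j : ℤ))) := by
    rw [Nat.cast_pow, map_pow, Nat.cast_ofNat, valuation_three, ← exp_nsmul]
    simp [mul_comm]
  refine mem_integralAdele_iff.2 fun w => ?_
  rw [placeVal_mul, placeVal_natCast, placeVal_units_inv, placeVal_piUnit_pow]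
  split_ifs with h
  · subst h
    rw [h3pow, ← exp_neg, ← exp_add, ← exp_zero, exp_le_exp]
    omega
  · rw [inv_one, mul_one]; exact valuation_natCast_le_one w _

/-- **The matching of valuations.** An idele with the valuations of `a π⁻ⁱ` at the places dividing
`M = N 3 ^ j` and of `1` elsewhere has those of `(3 ^ e / √-3) t` at every place, when `a` has order
`-1` at the places dividing `N` prime to `3` and `t` is `1 / M` at the bad places. -/
theorem placeVal_eq_exponent_mul {N m N₁ i j e : ℕ} {l : ℤ}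
    (hsq : ∀ q : ℕ, q.Prime → q ≠ 3 → ¬ q ^ 2 ∣ N) (hN₁ : ¬ 3 ∣ N₁) (hNm : N = 3 ^ m * N₁)
    (hj : 0 < j) (he : (e : ℤ) = m + j - l) {a α t : (FinAdele K)ˣ}
    (hil : log (placeVal threePlace (a : FinAdele K)) + i = 2 * l + 1)
    (ha : ∀ w : FinPlace K, (N : 𝓞 K) ∈ w.asIdeal → (3 : 𝓞 K) ∉ w.asIdeal →
      placeVal w (a : FinAdele K) = exp (1 : ℤ))
    (hαgood : ∀ w : FinPlace K, ((N * 3 ^ j : ℕ) : 𝓞 K) ∉ w.asIdeal →
      placeVal w (α : FinAdele K) = 1)
    (hαbad : ∀ w : FinPlace K, ((N * 3 ^ j : ℕ) : 𝓞 K) ∈ w.asIdeal →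
      placeVal w (α : FinAdele K) =
        placeVal w ((a * (piUnit threePlace ^ i)⁻¹ : (FinAdele K)ˣ) : FinAdele K))
    (ht : ∀ w : FinPlace K, ((N * 3 ^ j : ℕ) : 𝓞 K) ∈ w.asIdeal →
      toPlace w (((N * 3 ^ j : ℕ) : FinAdele K) * (t : FinAdele K)) = 1)
    (ht' : ∀ w : FinPlace K, ((N * 3 ^ j : ℕ) : 𝓞 K) ∉ w.asIdeal →
      toPlace w (t : FinAdele K) = 1)
    (ξ : Kˣ) (hξ : (ξ : K) = ((3 ^ e : ℕ) : K) * eisDelta) (w : FinPlace K) :
    placeVal w (α : FinAdele K) =
      placeVal w ((Rigidity.globalIdele K ξ * t : (FinAdele K)ˣ) : FinAdele K) := by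
  classical
  set z := log (placeVal threePlace (a : FinAdele K)) with hz
  set v₃ : FinPlace K := threePlace with hv₃
  set M := N * 3 ^ j with hMdef
  have h3v : ∀ w : FinPlace K, (3 : 𝓞 K) ∈ w.asIdeal → (M : 𝓞 K) ∈ w.asIdeal := fun w hw => by
    rw [hMdef, Nat.cast_mul, Nat.cast_pow]
    exact w.asIdeal.mul_mem_left _ (w.asIdeal.pow_mem_of_mem (by exact_mod_cast hw) _ hj)
  set α₀ := Rigidity.globalIdele K ξ * t with hα₀
  have hα₀v : placeVal w (α₀ : FinAdele K)
      = w.valuation K ((3 ^ e : ℕ) : K) * (w.valuation K eisSqrt)⁻¹ *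
        placeVal w (t : FinAdele K) := by
    rw [hα₀, Units.val_mul, placeVal_mul, placeVal_globalIdele, hξ, map_mul, valuation_eisDelta]
  by_cases hMw : (M : 𝓞 K) ∈ w.asIdeal
  · have htw : placeVal w (t : FinAdele K) = (w.valuation K (M : K))⁻¹ := by
      have := congrArg Valued.v (ht w hMw)
      rw [map_one] at this
      change placeVal w ((M : FinAdele K) * (t : FinAdele K)) = 1 at this
      rw [placeVal_mul, placeVal_natCast] at this
      exact eq_inv_of_mul_eq_one_right this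
    rw [hαbad w hMw, hα₀v, htw, Units.val_mul, placeVal_mul, placeVal_units_inv,
      placeVal_piUnit_pow]
    by_cases h3 : (3 : 𝓞 K) ∈ w.asIdeal
    · obtain rfl := eq_threePlace h3
      have hN1 : v₃.valuation K (N₁ : K) = 1 := by
        refine valuation_natCast_eq_one fun hmem => hN₁ ?_
        have h := resPrime_dvd hmem
        have h3' : (⟨3, Nat.prime_three⟩ : Nat.Primes) = resPrime v₃ :=
          eq_resPrime (by exact_mod_cast three_mem_threePlace)
        rwa [← h3'] at h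
      have hMval : v₃.valuation K (M : K) = exp (-(2 * ((m : ℤ) + j))) := by
        rw [hMdef, hNm, show 3 ^ m * N₁ * 3 ^ j = 3 ^ (m + j) * N₁ by ring, Nat.cast_mul,
          map_mul, hN1, mul_one, Nat.cast_pow, map_pow, Nat.cast_ofNat, valuation_three,
          ← exp_nsmul]
        congr 1
        simp [mul_comm]
      rw [if_pos rfl, hMval, valuation_eisSqrt_three,
        show placeVal v₃ (a : FinAdele K) = exp z from
          (exp_log (placeVal_units_ne_zero _ _)).symm,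
        Nat.cast_pow, map_pow, Nat.cast_ofNat, valuation_three, ← exp_nsmul, ← exp_neg,
        ← exp_neg, ← exp_neg, ← exp_add, ← exp_add, ← exp_add, exp_inj, nsmul_eq_mul]
      omega
    · have hne3 : w ≠ v₃ := fun h => h3 (h ▸ three_mem_threePlace)
      have hNw : (N : 𝓞 K) ∈ w.asIdeal := by
        rw [hMdef, Nat.cast_mul, Nat.cast_pow] at hMw
        exact (w.isPrime.mem_or_mem hMw).resolve_right fun h =>
          h3 (by exact_mod_cast w.isPrime.mem_of_pow_mem _ h)
      have h3' : ((3 : ℕ) : 𝓞 K) ∉ w.asIdeal := by exact_mod_cast h3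
      have hMval : w.valuation K (M : K) = exp (-1 : ℤ) := by
        rw [hMdef, valuation_mul_of_notMem (fun h => h3' (w.isPrime.mem_of_pow_mem j
          (by rwa [Nat.cast_pow] at h)))]
        exact valuation_level_eq_exp_neg_one hsq h3 hNw
      have haw : placeVal w (a : FinAdele K) = exp (1 : ℤ) :=
        ha w hNw h3
      rw [if_neg hne3, haw, inv_one, mul_one, hMval, valuation_eisSqrt_of_notMem h3,
        Nat.cast_pow, map_pow, valuation_natCast_eq_one h3', one_pow, inv_one, one_mul, one_mul,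
        ← exp_neg, neg_neg]
  · have h3 : (3 : 𝓞 K) ∉ w.asIdeal := fun h => hMw (h3v w h)
    have h3' : ((3 : ℕ) : 𝓞 K) ∉ w.asIdeal := by exact_mod_cast h3
    rw [hαgood w hMw, hα₀v, valuation_eisSqrt_of_notMem h3, Nat.cast_pow, map_pow,
      valuation_natCast_eq_one h3', one_pow, inv_one, one_mul, one_mul, placeVal, ht' w hMw,
      map_one]

/-- Translating by `diag (π ^ i, 1)`, `π` the uniformizer idele at `3`, keeps the eigen system at a
level divisible by `3`. -/
theorem isForm_translate_three {N M : ℕ} (hN : 0 < N) (hM : 0 < M) (hNM : N ∣ M)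
    (h3v : ∀ w : FinPlace K, (3 : 𝓞 K) ∈ w.asIdeal → (M : 𝓞 K) ∈ w.asIdeal) (i : ℕ)
    {φ₁ : Y (Level.principal K N hN) → ℂ} {lam : Ideal (𝓞 K) → ℂ} (hφ₁ : IsForm N hN lam φ₁)
    (hg : Conjugates (Level.principal K M hM) (Level.principal K N hN)
      (dia (piUnit (threePlace) ^ i))) :
    IsForm M hM lam (translate hg φ₁) := by
  set τ := piUnit threePlace ^ i with hτ
  set v₃ : FinPlace K := threePlace
  have hgv : ∀ w : FinPlace K, (M : 𝓞 K) ∉ w.asIdeal → glPlace w (dia τ) = 1 := fun w hw => by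
    rw [toPlace_dia_unip, show Units.map (toPlace w).toRingHom.toMonoidHom τ = 1 from ?_,
      Whittaker.dia_one]
    refine Units.ext ?_
    show toPlace w (τ : FinAdele K) = 1
    rw [hτ, Units.val_pow_eq_pow_val, map_pow,
      toPlace_piUnit_ne (fun e : w = v₃ => hw (h3v w (e ▸ three_mem_threePlace))), one_pow]
  exact ⟨isSphericalCuspForm_translate hg hφ₁.cusp,
      isHeckeEigenSystem_translate hg hN hM hNM (fun _ => mem_principal hN)
        (fun _ => mem_principal hM) (fun w hw => by rw [hgv w hw]; exact (intGroup w).one_mem)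
        hφ₁.eigen⟩

/-- The test vector, bad primes those of the level. -/
theorem exists_testVector_level {N : ℕ} (hN : 0 < N)
    (hsq : ∀ q : ℕ, q.Prime → q ≠ 3 → ¬ q ^ 2 ∣ N)
    {φ : Y (Level.principal K N hN) → ℂ} {lam : Ideal (𝓞 K) → ℂ} (hφ : IsSphericalCuspForm φ)
    (hne : ∃ y, φ y ≠ 0) (hlam : IsHeckeEigenSystem N φ lam) :
    ∃ (M : ℕ) (hM : 0 < M) (e : ℕ) (φ' : Y (Level.principal K M hM) → ℂ)
      (t : (FinAdele K)ˣ),
      N ∣ M ∧ 3 ∣ M ∧ (∀ q : ℕ, q.Prime → q ∣ M → q ∣ 3 * N) ∧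
      (∀ q : ℕ, q.Prime → q ≠ 3 → ¬ q ^ 2 ∣ M) ∧
      IsSphericalCuspForm φ' ∧ IsHeckeEigenSystem M φ' lam ∧
      (∀ v : FinPlace K, (M : 𝓞 K) ∈ v.asIdeal →
        toPlace v ((M : FinAdele K) * (t : FinAdele K)) = 1) ∧
      (∀ v : FinPlace K, (M : 𝓞 K) ∉ v.asIdeal → toPlace v (t : FinAdele K) = 1) ∧
      coef φ' (QuotientGroup.mk (dia t)) (((3 ^ e : ℕ) : K) * eisDelta) ≠ 0 := by
  classical
  have hne' : ∃ a, wv φ (dia a) ≠ 0 := by
    by_contra! h
    obtain ⟨y, hy⟩ := hne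
    exact hy (congrFun (Rigidity.eq_zero_of_whit_dia hφ.cuspEigen h) y)
  set Sbad := (finite_natCast_mem (F := K) hN).toFinset.filter
    fun v => (3 : 𝓞 K) ∉ v.asIdeal with hSbad
  have hbad : ∀ v, v ∈ Sbad ↔ (N : 𝓞 K) ∈ v.asIdeal ∧ (3 : 𝓞 K) ∉ v.asIdeal := fun v => by
    simp [hSbad]
  obtain ⟨φ₁, hφ₁, hsupp, a, ha⟩ := exists_raise_finset Sbad (fun v hv => by
    obtain ⟨h1, h3⟩ := (hbad v).1 hv
    exact ⟨not_differentIdeal_le_three v h3, valuation_level_eq_exp_neg_one hsq h3 h1⟩)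
    ⟨hφ, hlam⟩ hne'
  set v₃ : FinPlace K := threePlace
  set z := log (placeVal v₃ (a : FinAdele K)) with hz
  obtain ⟨i, l, hi, hil⟩ : ∃ (i : ℕ) (l : ℤ), i ≤ 1 ∧ z + i = 2 * l + 1 := by
    rcases Int.emod_two_eq_zero_or_one z with h | h
    · exact ⟨1, z / 2, le_rfl, by push_cast; omega⟩
    · exact ⟨0, z / 2, zero_le_one, by push_cast; omega⟩
  obtain ⟨m, N₁, hN₁, hNm⟩ := Nat.exists_eq_pow_mul_and_not_dvd hN.ne' 3 (by norm_num)
  set j := l.natAbs + 1 with hj
  set M := N * 3 ^ j with hMdef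
  have hM : 0 < M := Nat.mul_pos hN (pow_pos (by norm_num) _)
  have h3M : 3 ∣ M := dvd_mul_of_dvd_right (dvd_pow_self 3 (Nat.succ_ne_zero _)) _
  have h3v : ∀ w : FinPlace K, (3 : 𝓞 K) ∈ w.asIdeal → (M : 𝓞 K) ∈ w.asIdeal := fun w hw => by
    obtain ⟨c, hc⟩ := h3M
    rw [hc]; push_cast
    exact w.asIdeal.mul_mem_right _ hw
  set τ := piUnit v₃ ^ i with hτ
  have hτint : (τ : FinAdele K) ∈ integralAdele K := by
    rw [hτ, Units.val_pow_eq_pow_val]
    exact pow_mem (piUnit_mem_integralAdele _) i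
  have hD : ((3 ^ j : ℕ) : FinAdele K) * ((τ⁻¹ : (FinAdele K)ˣ) : FinAdele K) ∈ integralAdele K :=
    three_pow_mul_inv_mem_integralAdele (hi.trans (Nat.le_add_left 1 _))
  have hg := conjugates_dia hN hM hτint hD
  have hφ₂ : IsForm M hM lam (translate hg φ₁) :=
    isForm_translate_three hN hM (dvd_mul_right _ _) h3v i hφ₁ hg
  have hb : wv (translate hg φ₁) (dia (a * τ⁻¹)) ≠ 0 := by
    rwa [wv_translate hφ₁.cusp.cuspEigen, ← Whittaker.dia_mul, inv_mul_cancel_right]
  obtain ⟨α, hα, hαgood, hαbad⟩ := exists_unit_at_good hφ₂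
    (fun w hw => not_differentIdeal_le_three w fun h => hw (h3v w h)) hb
  obtain ⟨t, ht, ht'⟩ := exists_invIdele (F := K) hM
  -- the exponent
  set e := ((m : ℤ) + j - l).toNat with he
  set ξ : Kˣ := Units.mk0 (((3 ^ e : ℕ) : K) * eisDelta)
    (mul_ne_zero (Nat.cast_ne_zero.2 (pow_ne_zero _ (by norm_num))) eisDelta_ne_zero) with hξ
  set α₀ := Rigidity.globalIdele K ξ * t with hα₀
  have heq : ∀ w, placeVal w (α : FinAdele K) = placeVal w (α₀ : FinAdele K) :=
    placeVal_eq_exponent_mul hsq hN₁ hNm (Nat.succ_pos _) (Int.toNat_of_nonneg (by omega)) hil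
      (fun w hNw h3 => hsupp w ((hbad w).2 ⟨hNw, h3⟩) 1 (map_one _) a (by rwa [mul_one]))
      hαgood hαbad ht ht' ξ rfl
  set ε := α₀⁻¹ * α with hε
  have hεint := intGL_dia (ε := ε) fun w => by
    rw [hε, Units.val_mul, placeVal_mul, placeVal_units_inv, heq,
      inv_mul_cancel₀ (placeVal_units_ne_zero w α₀)]
  have hφ₃ := hφ₂.translate_intGL hεint
  refine ⟨M, hM, e, _, t, dvd_mul_right _ _, h3M, fun q hq hqM => ?_, fun q hq hq3 hqM => ?_,
    hφ₃.cusp, hφ₃.eigen, ht, ht', ?_⟩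
  · rcases hq.dvd_mul.1 (hMdef ▸ hqM) with h | h
    · exact dvd_mul_of_dvd_right h 3
    · exact dvd_mul_of_dvd_left (hq.dvd_of_dvd_pow h) N
  · refine hsq q hq hq3 (Nat.Coprime.dvd_of_dvd_mul_right ?_ (hMdef ▸ hqM))
    exact ((Nat.coprime_primes hq Nat.prime_three).2 hq3).pow 2 j
  · rw [show ((3 ^ e : ℕ) : K) * eisDelta = (ξ : K) from rfl, coef_eq_whit hφ₃.cusp.cuspEigen,
      glIncl_dia]
    show wv _ (dia (Rigidity.globalIdele K ξ) * dia t) ≠ 0
    rw [wv_translate hφ₂.cusp.cuspEigen, ← Whittaker.dia_mul, ← hα₀, ← Whittaker.dia_mul, hε,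
      mul_inv_cancel_left]
    exact hα

/-- **The test vector**, with any finite set `P` of primes thrown into the bad modulus. -/
theorem exists_testVector {N : ℕ} (hN : 0 < N)
    (hsq : ∀ q : ℕ, q.Prime → q ≠ 3 → ¬ q ^ 2 ∣ N) (P : Finset ℕ)
    {φ : Y (Level.principal K N hN) → ℂ} {lam : Ideal (𝓞 K) → ℂ} (hφ : IsSphericalCuspForm φ)
    (hne : ∃ y, φ y ≠ 0) (hlam : IsHeckeEigenSystem N φ lam) :
    ∃ (M : ℕ) (hM : 0 < M) (e : ℕ) (φ' : Y (Level.principal K M hM) → ℂ)
      (t : (FinAdele K)ˣ),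
      N ∣ M ∧ 3 ∣ M ∧ (∀ p ∈ P, p.Prime → p ∣ M) ∧
      (∀ q : ℕ, q.Prime → q ∣ M → q ∣ 3 * N ∨ q ∈ P) ∧
      (∀ q : ℕ, q.Prime → q ≠ 3 → ¬ q ^ 2 ∣ M) ∧
      IsSphericalCuspForm φ' ∧ IsHeckeEigenSystem M φ' lam ∧
      (∀ v : FinPlace K, (M : 𝓞 K) ∈ v.asIdeal →
        toPlace v ((M : FinAdele K) * (t : FinAdele K)) = 1) ∧
      (∀ v : FinPlace K, (M : 𝓞 K) ∉ v.asIdeal → toPlace v (t : FinAdele K) = 1) ∧
      coef φ' (QuotientGroup.mk (dia t)) (((3 ^ e : ℕ) : K) * eisDelta) ≠ 0 := by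
  classical
  set Q := P.filter fun p => p.Prime ∧ ¬ p ∣ N with hQdef
  have hQ : ∀ p, p ∈ Q ↔ p ∈ P ∧ p.Prime ∧ ¬ p ∣ N := fun p => by simp [hQdef]
  set N' := N * ∏ p ∈ Q, p with hN'def
  have hN' : 0 < N' := Nat.mul_pos hN (Finset.prod_pos fun p hp => ((hQ p).1 hp).2.1.pos)
  have hdvdQ : ∀ q : ℕ, q.Prime → q ∣ ∏ p ∈ Q, p → q ∈ Q := fun q hq h => by
    obtain ⟨p, hp, hqp⟩ := (Prime.dvd_finsetProd_iff hq.prime _).1 h
    rwa [(Nat.prime_dvd_prime_iff_eq hq ((hQ p).1 hp).2.1).1 hqp]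
  have hsq' : ∀ q : ℕ, q.Prime → q ≠ 3 → ¬ q ^ 2 ∣ N' := fun q hq hq3 h => by
    by_cases hqQ : q ∈ Q
    · have hco : Nat.Coprime q N := (Nat.Prime.coprime_iff_not_dvd hq).2 ((hQ q).1 hqQ).2.2
      have h2 : q ^ 2 ∣ q * ∏ p ∈ Q.erase q, p := by
        rw [Finset.mul_prod_erase Q (fun p => p) hqQ]
        exact (hco.pow_left 2).dvd_of_dvd_mul_left h
      rw [pow_two, Nat.mul_dvd_mul_iff_left hq.pos] at h2
      obtain ⟨p, hp, hqp⟩ := (Prime.dvd_finsetProd_iff hq.prime _).1 h2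
      exact Finset.ne_of_mem_erase hp
        ((Nat.prime_dvd_prime_iff_eq hq ((hQ p).1 (Finset.mem_of_mem_erase hp)).2.1).1 hqp).symm
    · exact hsq q hq hq3 ((((Nat.Prime.coprime_iff_not_dvd hq).2
        fun h' => hqQ (hdvdQ q hq h')).pow_left 2).dvd_of_dvd_mul_right h)
  have h1 : Conjugates (Level.principal K N' hN') (Level.principal K N hN) 1 :=
    conjugates_of_le (principal_le_of_dvd hN hN' (dvd_mul_right _ _))
  have hne' : ∃ y, translate h1 φ y ≠ 0 := by
    obtain ⟨⟨Z, c⟩, hy⟩ := hne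
    obtain ⟨c', rfl⟩ := cosetShift_surjective h1 c
    exact ⟨(Z, c'), hy⟩
  obtain ⟨M, hM, e, φ', t, hNM, h3M, hprimes, hsqM, hcusp, heig, ht, ht', hcoef⟩ :=
    exists_testVector_level hN' hsq' (isSphericalCuspForm_translate h1 hφ) hne'
      (isHeckeEigenSystem_translate h1 hN hN' (dvd_mul_right _ _) (fun _ => mem_principal hN)
        (fun _ => mem_principal hN') (fun w _ => by rw [map_one]; exact (intGroup w).one_mem) hlam)
  refine ⟨M, hM, e, φ', t, (dvd_mul_right _ _).trans hNM, h3M, fun p hp hpp => ?_,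
    fun q hq hqM => ?_, hsqM, hcusp, heig, ht, ht', hcoef⟩
  · by_cases hpN : p ∣ N
    · exact hpN.trans ((dvd_mul_right _ _).trans hNM)
    · exact ((Finset.dvd_prod_of_mem (fun p => p) ((hQ p).2 ⟨hp, hpp, hpN⟩)).trans
        (dvd_mul_left _ _)).trans hNM
  · rcases hq.dvd_mul.1 (hprimes q hq hqM) with h | h
    · exact Or.inl (dvd_mul_of_dvd_left h N)
    · rcases hq.dvd_mul.1 h with h | h
      · exact Or.inl (dvd_mul_of_dvd_right h 3)
      · exact Or.inr ((hQ q).1 (hdvdQ q hq h)).1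

end Fermat.Agent.LT.TestVector

end
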