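import Fermat.Agent.LT.Translate.Cusp
import Fermat.Agent.LT.Translate.Hecke
import Fermat.Agent.LT.Rigidity.Injective
import Fermat.Agent.LT.Whittaker.HeckeList
import Fermat.Agent.LT.Whittaker.TestVector

/-!
# Forms with prescribed Whittaker support: tools

`wv φ g` is the Whittaker function at the coset of `g`.  Translates by integral elements keep the
principal level; the average of a translate back to level `N` is the translate when the translated
form is invariant.
-/

set_option autoImplicit false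

noncomputable section

open IsDedekindDomain WithZero
open scoped NumberField Matrix

namespace Fermat.Agent.LT.TestVector

open Places Whittaker Translate

variable {F : Type*} [Field F] [NumberField F] {U U' : Level F}

/-- The Whittaker function at the coset of `g`. -/
def wv (φ : Y U → ℂ) (g : GLFin F) : ℂ := whit φ (QuotientGroup.mk g)

theorem toPlace_dia_unip {v : FinPlace F} (a : (FinAdele F)ˣ) :
    glPlace v (dia a) = dia (Units.map (toPlace v).toRingHom.toMonoidHom a) :=
  map_dia _ _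

/-- The component at `v` of a unipotent element. -/
theorem glPlace_unip (v : FinPlace F) (u : FinAdele F) :
    glPlace v (unip u) = unip (toPlace v u) := map_unip _ _

/-- The values of a form at a coset determine its Whittaker value there. -/
theorem whit_congr [NumberField.IsTotallyComplex F] {φ : Y U → ℂ} {φ' : Y U' → ℂ}
    (hφ : IsCuspEigen φ) {c : GLFin F ⧸ U.toSubgroup} {c' : GLFin F ⧸ U'.toSubgroup}
    (h : ∀ P, φ' (P, c') = φ (P, c)) : whit φ' c' = whit φ c := by
  simpa using whit_eq_sum (φ' := φ') (c := c') (Finset.univ : Finset Unit) (fun _ => (1 : ℂ))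
    (fun _ => φ) (fun _ _ => hφ) (fun _ => c) (fun P => by simpa using h P)

theorem wv_translate [NumberField.IsTotallyComplex F] {φ : Y U → ℂ} (hφ : IsCuspEigen φ)
    {g : GLFin F} (hg : Conjugates U' U g) (x : GLFin F) :
    wv (translate hg φ) x = wv φ (x * g) :=
  whit_congr hφ fun P => translate_mk hg φ P x

theorem wv_dia_unip [NumberField.IsTotallyComplex F] {φ : Y U → ℂ} (hφ : IsCuspEigen φ)
    (a : (FinAdele F)ˣ) (u : FinAdele F) (g : GLFin F) :
    wv φ (dia a * (unip u * g)) = psiFin F ((a : FinAdele F) * u) * wv φ (dia a * g) := by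
  rw [← mul_assoc]
  exact whit_dia_unip_smul hφ a u (QuotientGroup.mk g)

theorem intGL_localGL {v : FinPlace F} {k : GL (Fin 2) (v.adicCompletion F)}
    (hk : k ∈ intGroup v) : Reduction.IntGL (localGL v k) := by
  refine intGL_iff.2 fun w => ?_
  rcases eq_or_ne w v with rfl | h
  · rwa [glPlace_localGL_same]
  · rw [glPlace_localGL_ne h]; exact (intGroup w).one_mem

theorem localGL_unip' (v : FinPlace F) (b : v.adicCompletion F) :
    localGL v (unip b) = unip (single v b) := by
  refine gl_ext fun w => ?_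
  rw [glPlace_unip]
  rcases eq_or_ne w v with rfl | h
  · rw [glPlace_localGL_same, toPlace_single_same]
  · rw [glPlace_localGL_ne h, toPlace_single_ne h, unip, AddChar.map_zero_eq_one]

theorem glPlace_dia_piUnit_ne {v w : FinPlace F} (h : w ≠ v) : glPlace w (dia (piUnit v)) = 1 := by
  rw [toPlace_dia_unip,
    show Units.map (toPlace w).toRingHom.toMonoidHom (piUnit v) = 1 from
      Units.ext (toPlace_piUnit_ne h), Whittaker.dia_one]

/-- `K(N)` is normalised by `GL₂(Ô)`. -/
theorem isPrincipal_conj {N : ℕ} {g x : GLFin F} (hg : Reduction.IntGL g)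
    (hx : IsPrincipal F N x) : IsPrincipal F N (g⁻¹ * x * g) := by
  have key : ∀ x : GLFin F, IsPrincipal F N x → ∀ i j, ∃ z ∈ integralAdele F,
      (g⁻¹ * x * g).val i j =
        (1 : Matrix (Fin 2) (Fin 2) (FinAdele F)) i j + (N : FinAdele F) * z := by
    intro x hx i j
    choose a ha e using fun i j => hx.left i j
    refine ⟨((g⁻¹).val * Matrix.of a * g.val) i j, ?_, ?_⟩
    · rw [Matrix.mul_apply]
      refine sum_mem fun l _ => mul_mem ?_ (hg.1 l j)
      rw [Matrix.mul_apply]
      exact sum_mem fun m _ => mul_mem (hg.2 i m) (ha m l)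
    · have hval : x.val = 1 + Matrix.of fun i j => (N : FinAdele F) * a i j :=
        Matrix.ext fun i j => by rw [e i j]; simp
      rw [Units.val_mul, Units.val_mul, hval, Matrix.mul_add, Matrix.add_mul, Matrix.mul_one,
        ← Units.val_mul, inv_mul_cancel, Units.val_one, Matrix.add_apply]
      simp only [Matrix.mul_apply, Fin.sum_univ_two, Matrix.of_apply]
      ring
  intro i j
  obtain ⟨a, ha, ea⟩ := key x hx i j
  obtain ⟨b, hb, eb⟩ := key x⁻¹ hx.inv i j
  refine ⟨a, ha, b, hb, ea, ?_⟩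
  rw [show (g⁻¹ * x * g)⁻¹ = g⁻¹ * x⁻¹ * g by group]
  exact eb

theorem conjugates_of_intGL {N : ℕ} (hN : 0 < N) {g : GLFin F} (hg : Reduction.IntGL g) :
    Conjugates (Level.principal F N hN) (Level.principal F N hN) g := by
  rintro _ ⟨a, k, hk, rfl⟩
  refine ⟨a, g⁻¹ * k * g, isPrincipal_conj hg hk, ?_⟩
  rw [← mul_assoc, ← mul_assoc, ← scalarFin_comm a g⁻¹, ← mul_assoc]

theorem principal_le_of_dvd {N M : ℕ} (hN : 0 < N) (hM : 0 < M) (h : N ∣ M) :
    (Level.principal F M hM).toSubgroup ≤ (Level.principal F N hN).toSubgroup := by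
  rintro _ ⟨a, k, hk, rfl⟩
  exact ⟨a, k, hk.of_dvd h, rfl⟩

/-- Principal elements lie in the principal level. -/
theorem mem_principal {N : ℕ} (hN : 0 < N) {g : GLFin F} (hg : IsPrincipal F N g) :
    g ∈ (Level.principal F N hN).toSubgroup := ⟨1, g, hg, by simp⟩

/-- `dia t` carries `K(N * D)` into `K(N)` when `t` and `D / t` are integral. -/
theorem isPrincipal_conj_dia {N D : ℕ} {t : (FinAdele F)ˣ}
    (ht : (t : FinAdele F) ∈ integralAdele F)
    (hD : (D : FinAdele F) * ((t⁻¹ : (FinAdele F)ˣ) : FinAdele F) ∈ integralAdele F)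
    {x : GLFin F} (hx : IsPrincipal F (N * D) x) :
    IsPrincipal F N ((dia t)⁻¹ * x * dia t) := by
  have key : ∀ x : GLFin F, IsPrincipal F (N * D) x → ∀ i j, ∃ z ∈ integralAdele F,
      ((dia t)⁻¹ * x * dia t).val i j =
        (1 : Matrix (Fin 2) (Fin 2) (FinAdele F)) i j + (N : FinAdele F) * z := by
    intro x hx i j
    choose a ha e using fun i j => hx.left i j
    have hinv : ((dia t)⁻¹ : GLFin F).val
        = !![((t⁻¹ : (FinAdele F)ˣ) : FinAdele F), 0; 0, 1] := rfl
    have hval : (dia t : GLFin F).val = !![(t : FinAdele F), 0; 0, 1] := rfl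
    refine ⟨![![(D : FinAdele F) * a 0 0,
        (D : FinAdele F) * ((t⁻¹ : (FinAdele F)ˣ) : FinAdele F) * a 0 1],
      ![(D : FinAdele F) * t * a 1 0, (D : FinAdele F) * a 1 1]] i j, ?_, ?_⟩
    · fin_cases i <;> fin_cases j
      · exact mul_mem (natCast_mem _ _) (ha 0 0)
      · exact mul_mem hD (ha 0 1)
      · exact mul_mem (mul_mem (natCast_mem _ _) ht) (ha 1 0)
      · exact mul_mem (natCast_mem _ _) (ha 1 1)
    · have hti : ((t⁻¹ : (FinAdele F)ˣ) : FinAdele F) * t = 1 := t.inv_mul
      rw [Units.val_mul, Units.val_mul, hinv, hval]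
      simp only [Matrix.mul_apply, Fin.sum_univ_two, e]
      fin_cases i <;> fin_cases j <;> simp
      · linear_combination (1 + (N : FinAdele F) * D * a 0 0) * hti
      · ring
      · ring
      · ring
  intro i j
  obtain ⟨a, ha, ea⟩ := key x hx i j
  obtain ⟨b, hb, eb⟩ := key x⁻¹ hx.inv i j
  refine ⟨a, ha, b, hb, ea, ?_⟩
  rw [show ((dia t)⁻¹ * x * dia t)⁻¹ = (dia t)⁻¹ * x⁻¹ * dia t by group]
  exact eb

theorem conjugates_dia {N D : ℕ} (hN : 0 < N) {t : (FinAdele F)ˣ} (hM : 0 < N * D)
    (ht : (t : FinAdele F) ∈ integralAdele F)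
    (hD : (D : FinAdele F) * ((t⁻¹ : (FinAdele F)ˣ) : FinAdele F) ∈ integralAdele F) :
    Conjugates (Level.principal F (N * D) hM) (Level.principal F N hN) (dia t) := by
  rintro _ ⟨a, k, hk, rfl⟩
  refine ⟨a, (dia t)⁻¹ * k * dia t, isPrincipal_conj_dia ht hD hk, ?_⟩
  rw [← mul_assoc, ← mul_assoc, ← scalarFin_comm a (dia t)⁻¹, ← mul_assoc]

theorem heckeAt_combination {v : FinPlace F} (hU : IsGoodAt U v) {ι : Type*} (s : Finset ι)
    (k : ι → ℂ) {φ : ι → Y U → ℂ} {c : ℂ} (h : ∀ i ∈ s, (heckeAt U v hU).IsEigen (φ i) c) :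
    (heckeAt U v hU).IsEigen (fun y => ∑ i ∈ s, k i * φ i y) c := by
  have := Fintype.ofFinite (Residue v)
  rintro ⟨Q, q⟩
  induction q using QuotientGroup.induction_on with
  | H x =>
  rw [heckeAt_op hU _ Q x, Finset.sum_comm, Finset.mul_sum]
  refine Finset.sum_congr rfl fun i hi => ?_
  have h' := h i hi (Q, QuotientGroup.mk x)
  rw [heckeAt_op hU _ Q x] at h'
  rw [← Finset.mul_sum, h']
  ring

/-- Linear combinations of eigen systems. -/
theorem isHeckeEigenSystem_combination {N : ℕ} (hN : 0 < N)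
    (hU : ∀ k, IsPrincipal F N k → k ∈ U.toSubgroup) {ι : Type*} (s : Finset ι) (k : ι → ℂ)
    {φ : ι → Y U → ℂ} {lam : Ideal (𝓞 F) → ℂ}
    (h : ∀ i ∈ s, IsHeckeEigenSystem N (φ i) lam) :
    IsHeckeEigenSystem N (fun y => ∑ i ∈ s, k i * φ i y) lam := fun P hP hP0 hNP =>
  (Translate.isHeckeEigenAt_iff (v := ⟨P, hP, hP0⟩) hN hU hNP _ _).2
    (heckeAt_combination _ s k fun i hi =>
      (Translate.isHeckeEigenAt_iff (v := ⟨P, hP, hP0⟩) hN hU hNP _ _).1 (h i hi P hP hP0 hNP))

/-- The elements whose right translation fixes `φ`. -/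
def rightStab (φ : Y U → ℂ) : Subgroup (GLFin F) where
  carrier := {g | ∀ P x, φ (P, QuotientGroup.mk (x * g)) = φ (P, QuotientGroup.mk x)}
  one_mem' P x := by rw [mul_one]
  mul_mem' {g h} hg hh P x := by rw [← mul_assoc, hh, hg]
  inv_mem' {g} hg P x := by rw [← hg P (x * g⁻¹), inv_mul_cancel_right]

theorem le_rightStab (φ : Y U → ℂ) : U.toSubgroup ≤ rightStab φ := fun g hg P x => by
  rw [QuotientGroup.mk_mul_of_mem _ hg]

theorem wv_mul_of_mem_rightStab [NumberField.IsTotallyComplex F] {φ : Y U → ℂ}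
    (hφ : IsCuspEigen φ) {h : GLFin F} (hh : h ∈ rightStab φ) (g : GLFin F) :
    wv φ (g * h) = wv φ g :=
  whit_congr hφ fun P => hh P g

/-- Equality of the Whittaker functions of two translates gives invariance. -/
theorem mem_rightStab_of_wv [NumberField.IsTotallyComplex F] {φ : Y U → ℂ} (hφ : IsCuspEigen φ)
    {g₁ g₂ : GLFin F} (h : ∀ a, wv φ (dia a * g₁) = wv φ (dia a * g₂)) :
    g₂⁻¹ * g₁ ∈ rightStab φ := by
  obtain ⟨N₁, hN₁, h₁⟩ := Translate.exists_principal_conjugates U g₁
  obtain ⟨N₂, hN₂, h₂⟩ := Translate.exists_principal_conjugates U g₂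
  have hM : 0 < N₁ * N₂ := Nat.mul_pos hN₁ hN₂
  have c₁ := h₁ (N₁ * N₂) hM (dvd_mul_right _ _)
  have c₂ := h₂ (N₁ * N₂) hM (dvd_mul_left _ _)
  have he : translate c₁ φ = translate c₂ φ :=
    Rigidity.eq_of_whit_dia (isCuspEigen_translate c₁ hφ) (isCuspEigen_translate c₂ hφ) fun a => by
      show wv (translate c₁ φ) (dia a) = wv (translate c₂ φ) (dia a)
      rw [wv_translate hφ, wv_translate hφ, h]
  intro P x
  have e := congrFun he (P, QuotientGroup.mk (x * g₂⁻¹))
  rw [translate_mk, translate_mk, inv_mul_cancel_right] at e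
  rw [← mul_assoc]
  exact e

variable [NumberField.IsTotallyComplex F] {N : ℕ} {hN : 0 < N} {lam : Ideal (𝓞 F) → ℂ}

/-- A form of level `N` with the given eigen system. -/
structure IsForm (N : ℕ) (hN : 0 < N) (lam : Ideal (𝓞 F) → ℂ)
    (φ : Y (Level.principal F N hN) → ℂ) : Prop where
  cusp : IsSphericalCuspForm φ
  eigen : IsHeckeEigenSystem N φ lam

omit [NumberField.IsTotallyComplex F] in
theorem IsForm.translate_intGL {φ : Y (Level.principal F N hN) → ℂ} (hφ : IsForm N hN lam φ)
    {g : GLFin F} (hg : Reduction.IntGL g) :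
    IsForm N hN lam (translate (conjugates_of_intGL hN hg) φ) where
  cusp := isSphericalCuspForm_translate _ hφ.cusp
  eigen := isHeckeEigenSystem_translate _ hN hN dvd_rfl (fun _ => mem_principal hN)
    (fun _ => mem_principal hN) (fun v _ => intGL_iff.1 hg v) hφ.eigen

omit [NumberField.IsTotallyComplex F] in
/-- Forms with the same eigen system are closed under differences. -/
theorem IsForm.sub {φ ψ : Y (Level.principal F N hN) → ℂ} (hφ : IsForm N hN lam φ)
    (hψ : IsForm N hN lam ψ) : IsForm N hN lam (fun y => φ y - ψ y) := by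
  have e : (fun y => φ y - ψ y) = fun y =>
      ∑ i ∈ (Finset.univ : Finset (Fin 2)), ![(1 : ℂ), -1] i * ![φ, ψ] i y := by
    funext y; simp [Fin.sum_univ_two, sub_eq_add_neg]
  rw [e]
  refine ⟨isSphericalCuspForm_sum _ _ _ fun i _ => ?_,
    isHeckeEigenSystem_combination hN (fun _ => mem_principal hN) _ _ fun i _ => ?_⟩
  · fin_cases i; exacts [hφ.cusp, hψ.cusp]
  · fin_cases i; exacts [hφ.eigen, hψ.eigen]

theorem wv_sub {φ ψ : Y (Level.principal F N hN) → ℂ} (hφ : IsForm N hN lam φ)
    (hψ : IsForm N hN lam ψ) (g : GLFin F) :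
    wv (fun y => φ y - ψ y) g = wv φ g - wv ψ g := by
  have h := whit_eq_sum (φ' := fun y : Y (Level.principal F N hN) => φ y - ψ y)
    (c := QuotientGroup.mk g) (Finset.univ : Finset (Fin 2)) ![(1 : ℂ), -1] ![φ, ψ]
    (fun i _ => by fin_cases i; exacts [hφ.cusp.cuspEigen, hψ.cusp.cuspEigen])
    (fun _ => QuotientGroup.mk g)
    (fun P => by simp [Fin.sum_univ_two, sub_eq_add_neg])
  simpa [wv, Fin.sum_univ_two, sub_eq_add_neg] using h

/-- The translate by `g`, averaged back to level `N`: it is the translate when the translated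
form is invariant under `K(N)`. -/
theorem exists_shift {φ : Y (Level.principal F N hN) → ℂ} (hφ : IsForm N hN lam φ)
    {g : GLFin F} {M : ℕ} (hM : 0 < M) (hNM : N ∣ M)
    (hprimes : ∀ v : FinPlace F, (N : 𝓞 F) ∉ v.asIdeal → (M : 𝓞 F) ∉ v.asIdeal)
    (hg : Conjugates (Level.principal F M hM) (Level.principal F N hN) g)
    (hgv : ∀ v : FinPlace F, (N : 𝓞 F) ∉ v.asIdeal → glPlace v g ∈ intGroup v)
    (hinv : ∀ u, IsPrincipal F N u → g⁻¹ * u * g ∈ rightStab φ) :
    ∃ φ' : Y (Level.principal F N hN) → ℂ, IsForm N hN lam φ' ∧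
      ∀ x, wv φ' x = wv φ (x * g) := by
  have h1 : Conjugates (Level.principal F M hM) (Level.principal F N hN) 1 :=
    conjugates_of_le (principal_le_of_dvd hN hM hNM)
  have hMv : ∀ v : FinPlace F, (M : 𝓞 F) ∉ v.asIdeal → (N : 𝓞 F) ∉ v.asIdeal := fun v h hn => by
    obtain ⟨k, rfl⟩ := hNM
    exact h (by push_cast; exact v.asIdeal.mul_mem_right _ hn)
  have hval : ∀ P x, (Translate.index h1 : ℂ)⁻¹ *
      trace h1 (translate hg φ) (P, QuotientGroup.mk x) = φ (P, QuotientGroup.mk (x * g)) := by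
    intro P x
    rw [trace_mk, Finset.sum_congr rfl (g := fun _ => φ (P, QuotientGroup.mk
        (x * g))) fun b hb => ?_,
      Finset.sum_const, nsmul_eq_mul, ← mul_assoc, ← Translate.index, inv_mul_cancel₀
        (Nat.cast_ne_zero.2 (index_pos h1).ne'), one_mul]
    have hb' : cosetShift h1 b = QuotientGroup.mk 1 := (finite_fibre h1 _).mem_toFinset.1 hb
    induction b using QuotientGroup.induction_on with
    | H b0 =>
    rw [cosetShift_mk, mul_one, QuotientGroup.eq, mul_one] at hb'
    obtain ⟨a, k, hk, hb0⟩ := (Level.principal F N hN).toSubgroup.inv_mem hb'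
    rw [inv_inv] at hb0
    show φ (P, QuotientGroup.mk (x * b0 * g)) = _
    have hs : g⁻¹ * b0 * g ∈ rightStab φ := by
      rw [show g⁻¹ * b0 * g = scalarFin F a * (g⁻¹ * k * g) by
        rw [hb0, ← mul_assoc, ← mul_assoc, ← mul_assoc, ← scalarFin_comm a g⁻¹]]
      exact (rightStab φ).mul_mem (le_rightStab φ ((Level.principal F N hN).scalar_mem a))
          (hinv k hk)
    have := hs P (x * g)
    rwa [show x * g * (g⁻¹ * b0 * g) = x * b0 * g by group] at this
  refine ⟨fun y => ∑ _i ∈ ({()} : Finset Unit), (Translate.index h1 : ℂ)⁻¹ * trace h1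
      (translate hg φ) y,
    ⟨isSphericalCuspForm_sum _ _ _ fun _ _ =>
      isSphericalCuspForm_trace _ (isSphericalCuspForm_translate _ hφ.cusp),
    isHeckeEigenSystem_combination hN (fun _ => mem_principal hN) _ _ fun _ _ => ?_⟩, fun x => ?_⟩
  · intro P hP hP0 hNP
    let v : FinPlace F := ⟨P, hP, hP0⟩
    have h2 := isHeckeEigenSystem_trace h1 hM
      (fun k hk => mem_principal hN (hk.of_dvd hNM)) (fun _ => mem_principal hM)
      (fun w _ => by rw [map_one]; exact (intGroup w).one_mem)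
      (isHeckeEigenSystem_translate hg hN hM hNM (fun _ => mem_principal hN)
        (fun _ => mem_principal hM) (fun w hw => hgv w (hMv w hw)) hφ.eigen)
      P hP hP0 (hprimes v hNP)
    exact (Translate.isHeckeEigenAt_iff (v := v) hN (fun _ => mem_principal hN) hNP _ _).2
      ((Translate.isHeckeEigenAt_iff (v := v) hM (fun k hk => mem_principal hN (hk.of_dvd hNM))
        (hprimes v hNP) _ _).1 h2)
  · exact whit_congr hφ.cusp.cuspEigen fun P => by
      rw [Finset.sum_singleton]
      exact hval P x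

end Fermat.Agent.LT.TestVector

end
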