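import Fermat.Agent.LT.TestVector.Basic

/-!
# Moving the Whittaker support to order `-1` at a place where the level is exactly one

At a place `v` prime to the different with `|N|_v = exp (-1)` some translate of the form has a
nonzero Whittaker value at an idele of order `-1`: otherwise either translation by `diag (π, 1)`
keeps the level and lowers the order, or the form is invariant under `diag (π⁻², 1)` at `v`, which
is absurd.  A difference of two translates then confines the support to order `-1`.
-/

set_option autoImplicit false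

noncomputable section

open IsDedekindDomain WithZero
open scoped NumberField Matrix

namespace Fermat.Agent.LT.TestVector

open Places Whittaker Translate

variable {F : Type*} [Field F] [NumberField F] {v : FinPlace F}

theorem eq_exp_one {z : ℤᵐ⁰} (h1 : z ≤ exp (1 : ℤ)) (h2 : 1 < z) : z = exp (1 : ℤ) := by
  have h0 : z ≠ 0 := (zero_lt_one.trans h2).ne'
  rw [← exp_log h0, exp_le_exp] at h1
  rw [← exp_log h0, ← exp_zero, exp_lt_exp] at h2
  rw [← exp_log h0, exp_inj]
  omega

theorem le_exp_neg_one {z : ℤᵐ⁰} (h : z < 1) : z ≤ exp (-1 : ℤ) := by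
  rcases eq_or_ne z 0 with rfl | h0
  · exact zero_le
  · rw [← exp_log h0, ← exp_zero, exp_lt_exp] at h
    rw [← exp_log h0, exp_le_exp]
    omega

/-- Congruences survive multiplication by integral matrices. -/
theorem valued_mul_le_left {A M : Matrix (Fin 2) (Fin 2) (v.adicCompletion F)} {c : ℤᵐ⁰}
    (hA : ∀ i j, Valued.v (A i j) ≤ 1) (hM : ∀ i j, Valued.v (M i j) ≤ c) (i j : Fin 2) :
    Valued.v ((A * M) i j) ≤ c := by
  rw [Matrix.mul_apply]
  exact Valued.v.map_sum_le fun k _ => by
    rw [map_mul]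
    exact (mul_le_of_le_one_left' (hA i k)).trans (hM k j)

theorem valued_mul_le_right {B M : Matrix (Fin 2) (Fin 2) (v.adicCompletion F)} {c : ℤᵐ⁰}
    (hB : ∀ i j, Valued.v (B i j) ≤ 1) (hM : ∀ i j, Valued.v (M i j) ≤ c) (i j : Fin 2) :
    Valued.v ((M * B) i j) ≤ c := by
  rw [Matrix.mul_apply]
  exact Valued.v.map_sum_le fun k _ => by
    rw [map_mul]
    exact (mul_le_of_le_one_right' (hB k j)).trans (hM i k)

/-- An element which is an integral congruence at every place is principal. -/
theorem isPrincipal_of_local {N : ℕ} (hN : 0 < N) {g : GLFin F}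
    (hint : ∀ w, glPlace w g ∈ intGroup w)
    (h : ∀ w i j, Valued.v ((glPlace w g).val i j -
      (1 : Matrix (Fin 2) (Fin 2) (w.adicCompletion F)) i j) ≤ w.valuation F (N : F)) :
    IsPrincipal F N g := by
  refine (isPrincipal_iff hN).2 fun w i j => ⟨h w i j, ?_⟩
  set k := glPlace w g
  have hk := ((intGroup w).inv_mem (hint w)).1
  have e : (k⁻¹).val - 1 = (k⁻¹).val * (-(k.val - 1)) := by
    rw [neg_sub, Matrix.mul_sub, Matrix.mul_one, ← Units.val_mul, inv_mul_cancel, Units.val_one]
  rw [map_inv, ← Matrix.sub_apply, e]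
  exact valued_mul_le_left hk (fun i j => by
    rw [Matrix.neg_apply, Valuation.map_neg, Matrix.sub_apply]; exact h w i j) i j

/-- `ψ (α x)` is trivial when `|α|_v |x| ≤ 1`. -/
theorem psiFin_mul_single_eq_one (v : FinPlace F) {α : FinAdele F} {x : v.adicCompletion F}
    (h : placeVal v α * Valued.v x ≤ 1) : psiFin F (α * single v x) = 1 := by
  refine psiFin_of_mem (mem_integralAdele_iff.2 fun w => ?_)
  rcases eq_or_ne w v with rfl | hw
  · rw [placeVal_mul]
    simpa [placeVal] using h
  · simp [placeVal, toPlace_single_ne hw]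

/-- Conjugates of small unipotents lie in the principal level. -/
theorem conj_unip_mem {N : ℕ} (hN : 0 < N) {g : GLFin F} (hg : glPlace v g ∈ intGroup v)
    {x : v.adicCompletion F} (hx : Valued.v x ≤ v.valuation F (N : F)) :
    g⁻¹ * (unip (single v x) * g) ∈ (Level.principal F N hN).toSubgroup := by
  refine mem_principal hN (isPrincipal_of_local hN (fun w => ?_) fun w i j => ?_)
  · rcases eq_or_ne w v with rfl | hw
    · rw [map_mul, map_mul, map_inv, glPlace_unip, toPlace_single_same]
      exact (intGroup w).mul_mem ((intGroup w).inv_mem hg) ((intGroup w).mul_mem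
        (unip_mem (hx.trans (valuation_natCast_le_one w N))) hg)
    · rw [map_mul, map_mul, map_inv, glPlace_unip, toPlace_single_ne hw, unip,
        AddChar.map_zero_eq_one, one_mul, inv_mul_cancel]
      exact (intGroup w).one_mem
  · rcases eq_or_ne w v with rfl | hw
    · rw [map_mul, map_mul, map_inv, glPlace_unip, toPlace_single_same]
      set k := glPlace w g
      have e : (k⁻¹ * (unip x * k)).val - 1 = (k⁻¹).val * ((unip x).val - 1) * k.val := by
        rw [Units.val_mul, Units.val_mul, Matrix.mul_sub, Matrix.sub_mul, Matrix.mul_one,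
          ← Units.val_mul k⁻¹ k, inv_mul_cancel, Units.val_one, Matrix.mul_assoc]
      rw [← Matrix.sub_apply, e]
      refine valued_mul_le_right hg.1 (valued_mul_le_left ((intGroup w).inv_mem hg).1
        fun i j => ?_) i j
      fin_cases i <;> fin_cases j <;> simp [unip, hx]
    · rw [map_mul, map_mul, map_inv, glPlace_unip, toPlace_single_ne hw, unip,
        AddChar.map_zero_eq_one, one_mul, inv_mul_cancel]
      simp

theorem glPlace_localGL_commute {g : GLFin F} (hg : glPlace v g = 1)
    (a : GL (Fin 2) (v.adicCompletion F)) : localGL v a * g = g * localGL v a :=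
  localGL_mul_comm a (by rw [hg]; exact Commute.one_right a)

variable [NumberField.IsTotallyComplex F] {N : ℕ} {hN : 0 < N} {lam : Ideal (𝓞 F) → ℂ}

/-- The support is confined to order `-1` at `v`, at cosets trivial at `v`. -/
def SuppAt (φ : Y (Level.principal F N hN) → ℂ) (v : FinPlace F) : Prop :=
  ∀ g, glPlace v g = 1 → ∀ a : (FinAdele F)ˣ, wv φ (dia a * g) ≠ 0 →
    placeVal v (a : FinAdele F) = exp (1 : ℤ)

variable (hdiff : ¬ differentIdeal ℤ (𝓞 F) ≤ v.asIdeal)
  (hval : v.valuation F (N : F) = exp (-1 : ℤ))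

include hdiff hval

theorem le_exp_one {φ : Y (Level.principal F N hN) → ℂ} (hφ : IsForm N hN lam φ) {g : GLFin F}
    (hg : glPlace v g ∈ intGroup v) {a : (FinAdele F)ˣ} (hw : wv φ (dia a * g) ≠ 0) :
    placeVal v (a : FinAdele F) ≤ exp (1 : ℤ) := by
  by_contra hc
  obtain ⟨x₀, hx₀, hne⟩ := exists_psiFin_single_ne_one v hdiff
  set A := toPlace v (a : FinAdele F) with hA
  have hA0 : A ≠ 0 := toPlace_units_ne_zero v a
  have hc' : exp (1 : ℤ) < Valued.v A := not_le.1 hc
  have hx : Valued.v (A⁻¹ * x₀) ≤ v.valuation F (N : F) := by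
    rw [hval]
    refine le_exp_neg_one ?_
    rw [map_mul, map_inv₀, inv_mul_lt_iff₀ (zero_lt_iff.2 ((Valuation.ne_zero_iff _).2 hA0)),
        mul_one]
    exact hx₀.trans_lt hc'
  have e : (a : FinAdele F) * single v (A⁻¹ * x₀) = single v x₀ := ext_toPlace fun w => by
    rcases eq_or_ne w v with rfl | hw
    · rw [map_mul, toPlace_single_same, toPlace_single_same, ← hA, mul_inv_cancel_left₀ hA0]
    · rw [map_mul, toPlace_single_ne hw, toPlace_single_ne hw, mul_zero]
  have h1 := wv_dia_unip hφ.cusp.cuspEigen a (single v (A⁻¹ * x₀)) g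
  rw [e, show dia a * (unip (single v (A⁻¹ * x₀)) * g)
      = dia a * g * (g⁻¹ * (unip (single v (A⁻¹ * x₀)) * g)) by group,
    wv_mul_of_mem_rightStab hφ.cusp.cuspEigen
      (le_rightStab φ (conj_unip_mem hN hg hx))] at h1
  exact hne (mul_right_cancel₀ hw (by rw [one_mul]; exact h1.symm))

/-- A nonzero value of positive polar order is cut out by a difference of translates. -/
theorem exists_cut {φ : Y (Level.principal F N hN) → ℂ} (hφ : IsForm N hN lam φ)
    {a : (FinAdele F)ˣ} (hw : wv φ (dia a) ≠ 0) (ha : 1 < placeVal v (a : FinAdele F)) :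
    ∃ φ' : Y (Level.principal F N hN) → ℂ, IsForm N hN lam φ' ∧ SuppAt φ' v ∧
      (∀ w, w ≠ v → SuppAt φ w → SuppAt φ' w) ∧ wv φ' (dia a) ≠ 0 := by
  obtain ⟨x, hx, hne⟩ := exists_psiFin_mul_single_ne_one v hdiff a ha
  have hn : Reduction.IntGL (localGL v (unip x)) := intGL_localGL (unip_mem hx)
  set ψ := translate (conjugates_of_intGL hN hn) φ with hψ
  have hψf : IsForm N hN lam ψ := hφ.translate_intGL hn
  have key : ∀ g, glPlace v g = 1 → ∀ b : (FinAdele F)ˣ,
      wv (fun y => ψ y - φ y) (dia b * g)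
        = (psiFin F ((b : FinAdele F) * single v x) - 1) * wv φ (dia b * g) := by
    intro g hg b
    rw [wv_sub hψf hφ, hψ, wv_translate hφ.cusp.cuspEigen, mul_assoc,
      ← glPlace_localGL_commute hg, localGL_unip', wv_dia_unip hφ.cusp.cuspEigen]
    ring
  refine ⟨fun y => ψ y - φ y, hψf.sub hφ, fun g hg b hb => ?_, fun w hwv hS g hg b hb => ?_, ?_⟩
  · rw [key g hg] at hb
    obtain ⟨h1, h2⟩ := mul_ne_zero_iff.1 hb
    refine eq_exp_one (le_exp_one hdiff hval hφ (by rw [hg]; exact (intGroup v).one_mem) h2) ?_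
    refine not_le.1 fun hle => h1 ?_
    rw [psiFin_mul_single_of_le_one v hle hx, sub_self]
  · rw [wv_sub hψf hφ, hψ, wv_translate hφ.cusp.cuspEigen] at hb
    by_cases h0 : wv φ (dia b * g) = 0
    · refine hS (g * localGL v (unip x)) ?_ b ?_
      · rw [map_mul, hg, glPlace_localGL_ne hwv, one_mul]
      · rw [← mul_assoc]
        intro h
        exact hb (by rw [h, h0, sub_self])
    · exact hS g hg b h0
  · have h := key 1 (map_one _) a
    rw [mul_one] at h
    rw [h]
    exact mul_ne_zero (sub_ne_zero.2 hne) hw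

omit hdiff hval in
/-- If all translates by `GL₂(O_v)` have support of order `≥ 0`, `φ` is fixed by the conjugates
of `N(O_v)` by `GL₂(O_v)`. -/
theorem conj_unip_mem_rightStab {φ : Y (Level.principal F N hN) → ℂ} (hφ : IsForm N hN lam φ)
    (hno : ∀ k ∈ intGroup v, ∀ a : (FinAdele F)ˣ, wv φ (dia a * localGL v k) ≠ 0 →
      placeVal v (a : FinAdele F) ≤ 1)
    {k : GL (Fin 2) (v.adicCompletion F)} (hk : k ∈ intGroup v) {x : v.adicCompletion F}
    (hx : Valued.v x ≤ 1) : localGL v (k⁻¹ * (unip x * k)) ∈ rightStab φ := by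
  have hc := hφ.cusp.cuspEigen
  rw [map_mul, map_inv, map_mul]
  refine mem_rightStab_of_wv hc fun a => ?_
  rw [localGL_unip', wv_dia_unip hc]
  by_cases h0 : wv φ (dia a * localGL v k) = 0
  · rw [h0, mul_zero]
  · rw [psiFin_mul_single_of_le_one v (hno k hk a h0) hx, one_mul]

/-- Some support has order exactly zero. -/
theorem exists_unit_support {φ : Y (Level.principal F N hN) → ℂ} (hφ : IsForm N hN lam φ)
    (hne : ∃ a, wv φ (dia a) ≠ 0)
    (hno : ∀ k ∈ intGroup v, ∀ a : (FinAdele F)ˣ, wv φ (dia a * localGL v k) ≠ 0 →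
      placeVal v (a : FinAdele F) ≤ 1) :
    ∃ b : (FinAdele F)ˣ, wv φ (dia b) ≠ 0 ∧ placeVal v (b : FinAdele F) = 1 := by
  have hc := hφ.cusp.cuspEigen
  let H : Subgroup (GL (Fin 2) (v.adicCompletion F)) := (rightStab φ).comap (localGL v)
  have hconj : ∀ k ∈ intGroup v, ∀ x : v.adicCompletion F, Valued.v x ≤ 1 →
      k⁻¹ * (unip x * k) ∈ H := fun k hk x hx => conj_unip_mem_rightStab hφ hno hk hx
  have hU : ∀ x : v.adicCompletion F, Valued.v x ≤ 1 → unip x ∈ H := fun x hx => by
    simpa using hconj 1 (intGroup v).one_mem x hx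
  by_contra! hall
  have hlt : ∀ b : (FinAdele F)ˣ, wv φ (dia b) ≠ 0 →
      placeVal v (b : FinAdele F) ≤ exp (-1 : ℤ) := fun b hb => le_exp_neg_one
    (lt_of_le_of_ne (hno 1 (intGroup v).one_mem b (by rwa [map_one, mul_one])) (hall b hb))
  have hU' : ∀ x : v.adicCompletion F, Valued.v x ≤ exp (1 : ℤ) → unip x ∈ H := by
    intro x hx
    show localGL v (unip x) ∈ rightStab φ
    have h := mem_rightStab_of_wv hc (g₁ := localGL v (unip x)) (g₂ := 1) fun a => by
      rw [localGL_unip']
      have e := wv_dia_unip hc a (single v x) 1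
      rw [mul_one] at e
      rw [e]
      by_cases h0 : wv φ (dia a) = 0
      · simp [h0]
      · rw [psiFin_mul_single_eq_one v ?_, one_mul]
        calc _ ≤ exp (-1 : ℤ) * exp (1 : ℤ) := mul_le_mul' (hlt a h0) hx
          _ = 1 := by rw [← exp_add]; simp
    simpa using h
  set p : (v.adicCompletion F)ˣ := piLocal v
  have hp : Valued.v (p : v.adicCompletion F) = exp (-1 : ℤ) := valued_piLocal v
  have hpi : Valued.v ((p⁻¹ : (v.adicCompletion F)ˣ) : v.adicCompletion F) = exp (1 : ℤ) := by
    rw [Units.val_inv_eq_inv_val, map_inv₀, hp, ← exp_neg, neg_neg]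
  set D : GL (Fin 2) (v.adicCompletion F) :=
    unip ((p⁻¹ : (v.adicCompletion F)ˣ) : v.adicCompletion F) *
      ((swapGL v)⁻¹ * (unip (-(p : v.adicCompletion F)) * swapGL v)) *
      unip ((p⁻¹ : (v.adicCompletion F)ˣ) : v.adicCompletion F) *
    (unip (1 : v.adicCompletion F) * ((swapGL v)⁻¹ * (unip (-1 : v.adicCompletion F) * swapGL v)) *
      unip (1 : v.adicCompletion F))⁻¹ with hD
  have hDmem : D ∈ H :=
    H.mul_mem (H.mul_mem (H.mul_mem (hU' _ hpi.le)
        (hconj _ (swapGL_mem v) _ (by
          rw [Valuation.map_neg, hp, ← exp_zero, exp_le_exp]; omega))) (hU' _ hpi.le))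
      (H.inv_mem (H.mul_mem (H.mul_mem (hU 1 (by simp))
        (hconj _ (swapGL_mem v) _ (by simp))) (hU 1 (by simp))))
  set τ : (FinAdele F)ˣ := localUnit v (p⁻¹ * p⁻¹)
  have hτ : dia τ ∈ rightStab φ := by
    have e : dia τ = localGL v D * scalarFin F (localUnit v p⁻¹) := by
      refine gl_ext fun w => Units.ext (Matrix.ext fun i j => ?_)
      rcases eq_or_ne w v with rfl | hw
      · rw [map_mul, glPlace_localGL_same, Units.val_mul (α := Matrix (Fin 2) (Fin 2) _),
          Matrix.mul_apply]
        simp only [glPlace_scalarFin_apply, Fin.sum_univ_two]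
        rw [glPlace_apply]
        have hne0 : (p : w.adicCompletion F) ≠ 0 := p.ne_zero
        have e1 : ((unip (1 : w.adicCompletion F) * ((swapGL w)⁻¹ *
            (unip (-1 : w.adicCompletion F) * swapGL w)) * unip (1 : w.adicCompletion F))⁻¹ :
            GL (Fin 2) (w.adicCompletion F)).val = !![0, -1; 1, 0] := by
          rw [_root_.mul_inv_rev, _root_.mul_inv_rev, _root_.mul_inv_rev, _root_.mul_inv_rev,
              inv_inv]
          simp only [unip, ← AddChar.map_neg_eq_inv, neg_neg, Units.val_mul]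
          ext i j
          fin_cases i <;> fin_cases j <;>
            simp [swapGL, Matrix.mul_apply, Fin.sum_univ_two]
        rw [hD, Units.val_mul (α := Matrix (Fin 2) (Fin 2) _), e1]
        fin_cases i <;> fin_cases j <;>
          simp [swapGL, dia, τ, toPlace_localUnit_same, Matrix.mul_apply, Fin.sum_univ_two,
            Units.val_inv_eq_inv_val, hne0]
      · rw [map_mul, glPlace_localGL_ne hw, one_mul, glPlace_scalarFin_apply, glPlace_apply]
        fin_cases i <;> fin_cases j <;> simp [dia, τ, toPlace_localUnit_ne hw]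
    rw [e]
    exact (rightStab φ).mul_mem hDmem
      (le_rightStab φ ((Level.principal F N hN).scalar_mem _))
  obtain ⟨a₀, ha₀⟩ := hne
  have hiter : ∀ n : ℕ, wv φ (dia (a₀ * τ ^ n)) ≠ 0 := by
    intro n
    induction n with
    | zero => rwa [pow_zero, mul_one]
    | succ n ih =>
      rw [pow_succ, ← mul_assoc, Whittaker.dia_mul, wv_mul_of_mem_rightStab hc hτ]
      exact ih
  have hτv : placeVal v (τ : FinAdele F) = exp (2 : ℤ) := by
    rw [placeVal, toPlace_localUnit_same, Units.val_mul, map_mul, hpi, ← exp_add]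
    norm_num
  set z := log (placeVal v (a₀ : FinAdele F))
  have h := hlt _ (hiter (-z).toNat)
  rw [Units.val_mul, placeVal_mul, Units.val_pow_eq_pow_val, placeVal, placeVal, map_pow,
    map_pow] at h
  rw [show Valued.v (toPlace v (τ : FinAdele F)) = exp (2 : ℤ) from hτv,
    show Valued.v (toPlace v (a₀ : FinAdele F)) = exp z from
      (exp_log (placeVal_units_ne_zero v a₀)).symm, ← exp_nsmul, ← exp_add, exp_le_exp] at h
  simp only [nsmul_eq_mul] at h
  omega

/-- `diag (π, 1)` conjugates the level into the invariance group. -/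
theorem dia_conj_mem_rightStab {φ : Y (Level.principal F N hN) → ℂ} (hφ : IsForm N hN lam φ)
    (hno : ∀ k ∈ intGroup v, ∀ a : (FinAdele F)ˣ, wv φ (dia a * localGL v k) ≠ 0 →
      placeVal v (a : FinAdele F) ≤ 1) :
    ∀ u, IsPrincipal F N u → (dia (piUnit v))⁻¹ * u * dia (piUnit v) ∈ rightStab φ := by
  set T := dia (piUnit v) with hT
  have hU : ∀ x : v.adicCompletion F, Valued.v x ≤ 1 → localGL v (unip x) ∈ rightStab φ :=
    fun x hx => by
      simpa using conj_unip_mem_rightStab hφ hno (intGroup v).one_mem hx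
  intro u hu
  have hu' := (isPrincipal_iff hN).1 hu
  have hint := intGL_iff.1 (Reduction.intGL_of_isPrincipal (hu.of_dvd (one_dvd N)))
  set h := T⁻¹ * u * T with hh
  set β : v.adicCompletion F := (glPlace v u).val 0 1 * (piLocal v : v.adicCompletion F)⁻¹
  have hu01 : Valued.v ((glPlace v u).val 0 1) ≤ exp (-1 : ℤ) := by
    simpa [hval] using (hu' v 0 1).1
  have hβ : Valued.v β ≤ 1 := by
    rw [map_mul, map_inv₀, valued_piLocal]
    calc _ ≤ exp (-1 : ℤ) * (exp (-1 : ℤ))⁻¹ := mul_le_mul' hu01 le_rfl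
      _ = 1 := mul_inv_cancel₀ exp_ne_zero
  have hTv : glPlace v T = dia (piLocal v) := by
    rw [hT, toPlace_dia_unip]
    congr 1
    exact Units.ext (toPlace_piUnit_same v)
  have hp : IsPrincipal F N ((localGL v (unip β))⁻¹ * h) := by
    have hne0 : (piLocal v : v.adicCompletion F) ≠ 0 := (piLocal v).ne_zero
    have e : (glPlace v ((localGL v (unip β))⁻¹ * h)).val =
        !![(glPlace v u).val 0 0 - β * (piLocal v : v.adicCompletion F) * (glPlace v u).val 1 0,
            β - β * (glPlace v u).val 1 1;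
          (piLocal v : v.adicCompletion F) * (glPlace v u).val 1 0, (glPlace v u).val 1 1] := by
      rw [hh, map_mul, map_inv, glPlace_localGL_same, map_mul, map_mul, map_inv, hTv,
        Units.val_mul, Units.val_mul, Units.val_mul]
      simp only [unip, ← AddChar.map_neg_eq_inv]
      rw [show (Matrix.GeneralLinearGroup.upperRightHom (-β)).val
          = !![(1 : v.adicCompletion F), -β; 0, 1] by
          ext i j; fin_cases i <;> fin_cases j <;> simp,
        show ((dia (piLocal v))⁻¹ : GL (Fin 2) (v.adicCompletion F)).val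
          = !![((piLocal v)⁻¹ : (v.adicCompletion F)ˣ).val, 0; 0, 1] from rfl,
        show (dia (piLocal v)).val = !![(piLocal v : v.adicCompletion F), 0; 0, 1] from rfl,
        Matrix.eta_fin_two (glPlace v u).val, Matrix.mul_fin_two, Matrix.mul_fin_two,
        Matrix.mul_fin_two, Units.val_inv_eq_inv_val]
      set m00 := (glPlace v u).val 0 0
      set m01 := (glPlace v u).val 0 1
      set m10 := (glPlace v u).val 1 0
      set m11 := (glPlace v u).val 1 1
      refine Matrix.ext fun i j => ?_
      fin_cases i <;> fin_cases j <;> simp [β, hne0] <;> first | ring1 | (field_simp; ring1)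
    have hother : ∀ w, w ≠ v →
        glPlace w ((localGL v (unip β))⁻¹ * h) = glPlace w u := fun w hw => by
      rw [hh, map_mul, map_inv, glPlace_localGL_ne hw, map_mul, map_mul, map_inv,
        hT, glPlace_dia_piUnit_ne hw, inv_one, one_mul, one_mul, mul_one]
    have hpl : Valued.v (piLocal v : v.adicCompletion F) ≤ 1 := by
      rw [valued_piLocal, ← exp_zero, exp_le_exp]; omega
    have h10 : Valued.v ((glPlace v u).val 1 0) ≤ exp (-1 : ℤ) := by
      simpa [hval] using (hu' v 1 0).1
    have h00 : Valued.v ((glPlace v u).val 0 0 - 1) ≤ exp (-1 : ℤ) := by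
      simpa [hval] using (hu' v 0 0).1
    have h11 : Valued.v ((glPlace v u).val 1 1 - 1) ≤ exp (-1 : ℤ) := by
      simpa [hval] using (hu' v 1 1).1
    have hcongr : ∀ i j, Valued.v ((glPlace v ((localGL v (unip β))⁻¹ * h)).val i j -
        (1 : Matrix (Fin 2) (Fin 2) (v.adicCompletion F)) i j) ≤ v.valuation F (N : F) := by
      intro i j
      rw [e, hval]
      fin_cases i <;> fin_cases j
      · simp only [Fin.zero_eta, Matrix.of_apply, Matrix.cons_val', Matrix.cons_val_zero,
          Matrix.cons_val_fin_one, Matrix.one_apply_eq]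
        rw [sub_right_comm]
        refine (Valued.v.map_sub _ _).trans (max_le h00 ?_)
        rw [map_mul, map_mul]
        exact (mul_le_of_le_one_left' (mul_le_one' hβ hpl)).trans h10
      · simp only [Fin.zero_eta, Fin.mk_one, Matrix.of_apply, Matrix.cons_val',
          Matrix.cons_val_zero,
          Matrix.cons_val_one, Matrix.cons_val_fin_one, ne_eq, zero_ne_one, not_false_eq_true,
          Matrix.one_apply_ne, sub_zero]
        rw [show β - β * (glPlace v u).val 1 1 = -(β * ((glPlace v u).val 1 1 - 1)) by ring,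
          Valuation.map_neg, map_mul]
        exact (mul_le_of_le_one_left' hβ).trans h11
      · simp only [Fin.zero_eta, Fin.mk_one, Matrix.of_apply, Matrix.cons_val',
          Matrix.cons_val_zero,
          Matrix.cons_val_one, Matrix.cons_val_fin_one, ne_eq, one_ne_zero, not_false_eq_true,
          Matrix.one_apply_ne, sub_zero]
        rw [map_mul]
        exact (mul_le_of_le_one_left' hpl).trans h10
      · simpa using h11
    refine isPrincipal_of_local hN (fun w => ?_) fun w i j => ?_
    · rcases eq_or_ne w v with rfl | hw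
      · refine ⟨fun i j => ?_, ?_⟩
        · have h1 := (hcongr i j).trans (valuation_natCast_le_one w N)
          set X := (glPlace w ((localGL w (unip β))⁻¹ * h)).val i j
          have h2 : Valued.v ((1 : Matrix (Fin 2) (Fin 2) (w.adicCompletion F)) i j) ≤ 1 := by
            by_cases hij : i = j <;> simp [hij, Matrix.one_apply]
          have h3 := (Valued.v.map_add (X - (1 : Matrix (Fin 2) (Fin 2) (w.adicCompletion F)) i j)
            ((1 : Matrix (Fin 2) (Fin 2) (w.adicCompletion F)) i j)).trans (max_le h1 h2)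
          rwa [sub_add_cancel] at h3
        · rw [e, Matrix.det_fin_two_of]
          have hd := (hint w).2
          rw [Matrix.det_fin_two] at hd
          convert hd using 2
          simp only [β]
          field_simp
          ring
      · rw [hother w hw]; exact hint w
    · rcases eq_or_ne w v with rfl | hw
      · exact hcongr i j
      · rw [hother w hw]; exact (hu' w i j).1
  have := (rightStab φ).mul_mem (hU β hβ)
    (le_rightStab φ (mem_principal hN hp))
  rwa [mul_inv_cancel_left] at this

/-- If all translates by `GL₂(O_v)` have support of order `≥ 0`, translation by `diag (π, 1)`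
keeps the level and produces order `-1`. -/
theorem exists_lower {φ : Y (Level.principal F N hN) → ℂ} (hφ : IsForm N hN lam φ)
    (hne : ∃ a, wv φ (dia a) ≠ 0)
    (hno : ∀ k ∈ intGroup v, ∀ a : (FinAdele F)ˣ, wv φ (dia a * localGL v k) ≠ 0 →
      placeVal v (a : FinAdele F) ≤ 1) :
    ∃ φ' : Y (Level.principal F N hN) → ℂ, IsForm N hN lam φ' ∧
      (∀ w, w ≠ v → SuppAt φ w → SuppAt φ' w) ∧
      ∃ a, wv φ' (dia a) ≠ 0 ∧ 1 < placeVal v (a : FinAdele F) := by
  have hc := hφ.cusp.cuspEigen
  obtain ⟨b, hb, hbv⟩ := exists_unit_support hdiff hval hφ hne hno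
  set T := dia (piUnit v) with hT
  have hNv : (N : 𝓞 F) ∈ v.asIdeal := by
    by_contra h
    have := valuation_natCast_eq_one h
    rw [hval, ← exp_zero, exp_inj] at this
    omega
  have hD : (N : FinAdele F) * (((piUnit v)⁻¹ : (FinAdele F)ˣ) : FinAdele F) ∈ integralAdele F := by
    refine mem_integralAdele_iff.2 fun w => ?_
    rw [placeVal_mul, placeVal_natCast, placeVal_units_inv]
    rcases eq_or_ne w v with rfl | hw
    · rw [hval, placeVal_piUnit_same, mul_inv_cancel₀ exp_ne_zero]
    · rw [placeVal_piUnit_ne hw, inv_one, mul_one]; exact valuation_natCast_le_one w N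
  have hsupp := dia_conj_mem_rightStab hdiff hval hφ hno
  obtain ⟨φ', hφ', hval'⟩ := exists_shift hφ (Nat.mul_pos hN hN) (dvd_mul_right N N)
    (fun w hw hm => hw ((w.isPrime.mem_or_mem (by push_cast at hm; exact hm)).elim id id))
    (conjugates_dia hN (Nat.mul_pos hN hN) (piUnit_mem_integralAdele v) hD)
    (fun w hw => by
      rw [glPlace_dia_piUnit_ne (fun h : w = v => hw (h ▸ hNv))]
      exact (intGroup w).one_mem) hsupp
  refine ⟨φ', hφ', fun w hwv hS g hg a ha => hS (g * T) ?_ a ?_, b * (piUnit v)⁻¹, ?_, ?_⟩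
  · rw [map_mul, hg, hT, glPlace_dia_piUnit_ne hwv, one_mul]
  · rwa [hval', mul_assoc] at ha
  · rwa [hval', ← Whittaker.dia_mul, inv_mul_cancel_right]
  · rw [Units.val_mul, placeVal_mul, hbv, one_mul, placeVal_units_inv, placeVal_piUnit_same,
      ← exp_neg, neg_neg, ← exp_zero, exp_lt_exp]
    omega

/-- **One place**: some form with the same eigen system has support of order `-1` at `v`. -/
theorem exists_raise {φ : Y (Level.principal F N hN) → ℂ} (hφ : IsForm N hN lam φ)
    (hne : ∃ a, wv φ (dia a) ≠ 0) :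
    ∃ φ' : Y (Level.principal F N hN) → ℂ, IsForm N hN lam φ' ∧ SuppAt φ' v ∧
      (∀ w, w ≠ v → SuppAt φ w → SuppAt φ' w) ∧ ∃ a, wv φ' (dia a) ≠ 0 := by
  by_cases hno : ∀ k ∈ intGroup v, ∀ a : (FinAdele F)ˣ, wv φ (dia a * localGL v k) ≠ 0 →
      placeVal v (a : FinAdele F) ≤ 1
  · obtain ⟨φ₁, h₁, hS₁, a, ha, hav⟩ := exists_lower hdiff hval hφ hne hno
    obtain ⟨φ', h', hv', hS', ha'⟩ := exists_cut hdiff hval h₁ ha hav
    exact ⟨φ', h', hv', fun w hw hS => hS' w hw (hS₁ w hw hS), a, ha'⟩
  · push Not at hno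
    obtain ⟨k, hk, a, ha, hav⟩ := hno
    have hg := intGL_localGL hk
    have ha₁ : wv (translate (conjugates_of_intGL hN hg) φ) (dia a) ≠ 0 := by
      rwa [wv_translate hφ.cusp.cuspEigen]
    obtain ⟨φ', h', hv', hS', ha'⟩ := exists_cut hdiff hval (hφ.translate_intGL hg) ha₁ hav
    refine ⟨φ', h', hv', fun w hw hS => hS' w hw fun g hgw b hb => ?_, a, ha'⟩
    rw [wv_translate hφ.cusp.cuspEigen, mul_assoc] at hb
    exact hS (g * localGL v k) (by rw [map_mul, hgw, glPlace_localGL_ne hw, one_mul]) b hb

omit hdiff hval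

/-- Finitely many places. -/
theorem exists_raise_finset (S : Finset (FinPlace F))
    (hS : ∀ v ∈ S, ¬ differentIdeal ℤ (𝓞 F) ≤ v.asIdeal ∧ v.valuation F (N : F) = exp (-1 : ℤ))
    {φ : Y (Level.principal F N hN) → ℂ} (hφ : IsForm N hN lam φ) (hne : ∃ a, wv φ (dia a) ≠ 0) :
    ∃ φ' : Y (Level.principal F N hN) → ℂ, IsForm N hN lam φ' ∧ (∀ v ∈ S, SuppAt φ' v) ∧
      ∃ a, wv φ' (dia a) ≠ 0 := by
  classical
  induction S using Finset.induction_on with
  | empty => exact ⟨φ, hφ, fun v hv => absurd hv (Finset.notMem_empty v), hne⟩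
  | insert v S hv ih =>
    obtain ⟨φ₁, h₁, hS₁, hne₁⟩ := ih fun w hw => hS w (Finset.mem_insert_of_mem hw)
    obtain ⟨hd, hv1⟩ := hS v (Finset.mem_insert_self v S)
    obtain ⟨φ', h', hv', hkeep, hne'⟩ := exists_raise hd hv1 h₁ hne₁
    refine ⟨φ', h', fun w hw => ?_, hne'⟩
    rcases Finset.mem_insert.1 hw with rfl | hw
    · exact hv'
    · exact hkeep w (fun h : w = v => hv (h ▸ hw)) (hS₁ w hw)

end Fermat.Agent.LT.TestVector

end
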